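import Fermat.Agent.S53.Good
import Fermat.Agent.S53.H85.PackageM
import Fermat.Agent.S53.H96.TestAlg

/-!
# S53, Galois side: H3 (`F_pt`)

Over the residue field there is exactly one good lift: the residual matrix representation.
-/

set_option autoImplicit false
set_option linter.unusedSectionVars false

namespace Fermat.Agent.S53.H99

open IsLocalRing Fermat.Agent.S53

variable {𝒪 : Type} [CommRing 𝒪] [IsDomain 𝒪] [IsDiscreteValuationRing 𝒪]
  [IsAdicComplete (maximalIdeal 𝒪) 𝒪] [Finite (ResidueField 𝒪)]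
  {ρbar : ResidualGaloisRep (ResidueField 𝒪)}
  {𝒟 : ∀ ⦃A : Type⦄ [CommRing A] [IsLocalRing A] [Algebra 𝒪 A], GaloisRepAdic A → Prop}
  {γ : Gauge 𝒪} {b : Module.Basis (Fin 2) (ResidueField 𝒪) ρbar.V}

/-- The residual matrix representation is a good lift over the residue field. -/
theorem isGood_rbarOf (hγ : γ.IsValid ρbar b) (h𝒟 : GaloisRep.IsDeformationCondition 𝒪 𝒟)
    (hbar : 𝒟 (GaloisRepAdic.ofResidualGaloisRep ρbar)) :
    IsGood 𝒟 γ (ResidueField 𝒪) (rbarOf ρbar b) where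
  lift σ i j := by
    have h : rbarOf ρbar b σ i j - algebraMap 𝒪 (ResidueField 𝒪) (γ.rt σ i j) = 0 := by
      rw [sub_eq_zero, ← hγ.hrt σ i j]
      rfl
    rw [h]
    exact Ideal.zero_mem _
  g00 := hγ.h00
  g10 := hγ.h10
  gij := by
    rw [← hγ.hrt γ.g₂ γ.i γ.j]
    rfl
  cont := H85.matCont_rbarOf ρbar b
  cond := by
    obtain ⟨e⟩ := H85.ofMat_rbarOf_isEquiv ρbar b (H85.matCont_rbarOf ρbar b)
    exact h𝒟.of_isEquiv H96.testAlg_residueField ⟨e.symm⟩ hbar

/-- Every good lift over the residue field is the residual matrix representation. -/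
theorem eq_rbarOf_of_isGood (hγ : γ.IsValid ρbar b) (r : GQ →* M2 (ResidueField 𝒪))
    (hr : IsGood 𝒟 γ (ResidueField 𝒪) r) (σ : GQ) (i j : Fin 2) :
    r σ i j = rbarOf ρbar b σ i j := by
  have h := hr.lift σ i j
  have hbot : maximalIdeal (ResidueField 𝒪) = ⊥ :=
    (Ideal.eq_bot_or_top _).resolve_right (Ideal.IsMaximal.ne_top inferInstance)
  rw [hbot, Ideal.mem_bot, sub_eq_zero] at h
  rw [h, ← hγ.hrt σ i j]
  rfl

/-- H3 (pt): exactly one point over the residue field. -/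
theorem F_pt (hγ : γ.IsValid ρbar b) (h𝒟 : GaloisRep.IsDeformationCondition 𝒪 𝒟)
    (hbar : 𝒟 (GaloisRepAdic.ofResidualGaloisRep ρbar)) :
    ∃ x₀, F 𝒟 γ (ResidueField 𝒪) = {x₀} := by
  refine ⟨fun x => rbarOf ρbar b x.1 x.2.1 x.2.2, ?_⟩
  ext x
  simp only [Set.mem_singleton_iff]
  constructor
  · rintro ⟨r, hrx, hr⟩
    funext ⟨σ, i, j⟩
    rw [← hrx σ i j]
    exact eq_rbarOf_of_isGood hγ r hr σ i j
  · rintro rfl
    exact ⟨rbarOf ρbar b, fun σ i j => rfl, isGood_rbarOf hγ h𝒟 hbar⟩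

end Fermat.Agent.S53.H99
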