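import Fermat.Agent.S53.Good
import Fermat.Agent.S53.H85.PackageM
import Fermat.Agent.S53.H96.TestAlg

/-!
# S53, Galois side: H9 (`good_map_of_cond`) and H1 (`F_push`)

Push-forward of good lifts along `𝒪`-algebra maps.
-/

set_option autoImplicit false
set_option linter.unusedSectionVars false

namespace Fermat.Agent.S53.H99

open IsLocalRing Fermat.Agent.S53

variable {𝒪 : Type} [CommRing 𝒪] [IsDomain 𝒪] [IsDiscreteValuationRing 𝒪]
  [IsAdicComplete (maximalIdeal 𝒪) 𝒪] [Finite (ResidueField 𝒪)]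
  {ρbar : ResidualGaloisRep (ResidueField 𝒪)}
  {𝒟 : ∀ ⦃A : Type⦄ [CommRing A] [IsLocalRing A] [Algebra 𝒪 A], GaloisRepAdic A → Prop}
  {γ : Gauge 𝒪} {b : Module.Basis (Fin 2) (ResidueField 𝒪) ρbar.V}

/-- H9: push-forward of a good lift along a local algebra map: all properties except `cond`. -/
theorem good_map_of_cond (A B : Type) [CommRing A] [IsLocalRing A] [Algebra 𝒪 A]
    [CommRing B] [IsLocalRing B] [Algebra 𝒪 B] (φ : A →ₐ[𝒪] B) (hφ : IsLocalHom (φ : A →+* B))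
    (r : GQ →* M2 A) (hr : IsGood 𝒟 γ A r)
    (hcond : ∀ hc : MatCont (mapMat (φ : A →+* B) r), 𝒟 (ofMat (mapMat (φ : A →+* B) r) hc)) :
    IsGood 𝒟 γ B (mapMat (φ : A →+* B) r) where
  lift σ i j := by
    have h1 : (φ : A →+* B) (r σ i j - algebraMap 𝒪 A (γ.rt σ i j)) ∈ maximalIdeal B :=
      (mem_maximalIdeal _).mpr
        (map_nonunit (φ : A →+* B) _ ((mem_maximalIdeal _).mp (hr.lift σ i j)))
    have h2 : (φ : A →+* B) (r σ i j - algebraMap 𝒪 A (γ.rt σ i j)) =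
        mapMat (φ : A →+* B) r σ i j - algebraMap 𝒪 B (γ.rt σ i j) := by
      rw [map_sub, mapMat_apply]
      congr 1
      exact φ.commutes _
    rw [← h2]
    exact h1
  g00 := by rw [mapMat_apply, hr.g00, map_zero]
  g10 := by rw [mapMat_apply, hr.g10, map_one]
  gij := by
    rw [mapMat_apply, hr.gij]
    exact φ.commutes _
  cont := H85.matCont_mapMat (φ : A →+* B) hφ hr.cont
  cond := hcond _

/-- H1 (push): good lifts are stable under `𝒪`-algebra maps of Artinian test algebras. -/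
theorem F_push (h𝒟 : GaloisRep.IsDeformationCondition 𝒪 𝒟)
    (A B : Type) [CommRing A] [IsLocalRing A] [Algebra 𝒪 A]
    [CommRing B] [IsLocalRing B] [Algebra 𝒪 B]
    (hA : GaloisRep.IsArtinianTestAlgebra 𝒪 A) (hB : GaloisRep.IsArtinianTestAlgebra 𝒪 B)
    (φ : A →ₐ[𝒪] B) (x : XX → A) (hx : x ∈ F 𝒟 γ A) : (fun i => φ (x i)) ∈ F 𝒟 γ B := by
  obtain ⟨r, hrx, hr⟩ := hx
  have hφ : IsLocalHom (φ : A →+* B) :=
    H96.isLocalHom_of_residue_surjective hB.residue_surjective φ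
  refine ⟨mapMat (φ : A →+* B) r, fun σ i j => ?_, good_map_of_cond A B φ hφ r hr fun hc => ?_⟩
  · rw [mapMat_apply, hrx]
    rfl
  · exact h𝒟.of_isEquiv hB (H85.baseChangeAlong_ofMat_isEquiv (φ : A →+* B) hφ hr.cont hc)
      (h𝒟.baseChangeAlong hA hB φ hφ hr.cond)

end Fermat.Agent.S53.H99
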