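import Mathlib
import Fermat.Prelude.Def_GaloisRep_DeformationRingData
import Fermat.Prelude.Def_GaloisRep_DeformationCondition

/-!
# S53: a deformation condition is invariant under equivalence over complete noetherian local
algebras

`GaloisRep.IsDeformationCondition.of_isEquiv` is only available over Artinian test algebras.
Over complete noetherian local `𝒪`-algebras the invariance follows from `iff_forall_surjective`.
-/

set_option autoImplicit false

namespace Fermat.Agent.S53.H99

open IsLocalRing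

variable {𝒪 : Type} [CommRing 𝒪]
  {𝒟 : ∀ ⦃A : Type⦄ [CommRing A] [IsLocalRing A] [Algebra 𝒪 A], GaloisRepAdic A → Prop}

/-- H10: over a complete noetherian local `𝒪`-algebra with residue field `𝒪/𝔪`, a deformation
condition is invariant under equivalence of representations. -/
theorem cond_of_isEquiv_complete (h𝒟 : GaloisRep.IsDeformationCondition 𝒪 𝒟)
    (A : Type) [CommRing A] [IsLocalRing A] [IsNoetherianRing A]
    [IsAdicComplete (maximalIdeal A) A] [Algebra 𝒪 A]
    (hloc : IsLocalHom (algebraMap 𝒪 A))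
    (hres : Function.Surjective (residue A ∘ algebraMap 𝒪 A))
    {ρ ρ' : GaloisRepAdic A} (e : ρ.IsEquiv ρ') (h : 𝒟 ρ) : 𝒟 ρ' := by
  rw [h𝒟.iff_forall_surjective hloc hres] at h ⊢
  intro B _ _ _ hB q hq hsurj
  obtain ⟨e'⟩ := e
  exact h𝒟.of_isEquiv hB ⟨e'.baseChangeAlong (q : A →+* B) hq⟩ (h hB q hq hsurj)

/-- H10, iff form. -/
theorem cond_iff_of_isEquiv_complete (h𝒟 : GaloisRep.IsDeformationCondition 𝒪 𝒟)
    (A : Type) [CommRing A] [IsLocalRing A] [IsNoetherianRing A]
    [IsAdicComplete (maximalIdeal A) A] [Algebra 𝒪 A]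
    (hloc : IsLocalHom (algebraMap 𝒪 A))
    (hres : Function.Surjective (residue A ∘ algebraMap 𝒪 A))
    {ρ ρ' : GaloisRepAdic A} (e : ρ.IsEquiv ρ') : 𝒟 ρ ↔ 𝒟 ρ' := by
  refine ⟨cond_of_isEquiv_complete h𝒟 A hloc hres e, ?_⟩
  obtain ⟨e'⟩ := e
  exact cond_of_isEquiv_complete h𝒟 A hloc hres ⟨e'.symm⟩

end Fermat.Agent.S53.H99
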