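import Mathlib
import Fermat.Prelude.Def_GaloisRep_DeformationRingData
import Fermat.Prelude.Def_GaloisRep_DeformationCondition

/-!
# S53: bridge lemmas for `GaloisRep.TangentFinite`

`GaloisRep.TangentFinite` is stated with two `letI` algebra structures which are *not*
definitionally equal to the global Mathlib instances on the dual numbers.  This file names them,
unfolds `TangentFinite` in terms of the names, and provides the finiteness criterion needed for
the tangent-space bound.
-/

set_option autoImplicit false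

namespace Fermat.Agent.S53.H99

open IsLocalRing

variable (𝒪 : Type) [CommRing 𝒪] [IsLocalRing 𝒪]

/-- The `𝒪`-algebra structure on the dual numbers over the residue field which is used
(through a `letI`) in `GaloisRep.TangentFinite`. -/
@[reducible] noncomputable def dualAlgebra : Algebra 𝒪 (DualNumber (ResidueField 𝒪)) :=
  ((algebraMap (ResidueField 𝒪) (DualNumber (ResidueField 𝒪))).comp
      (algebraMap 𝒪 (ResidueField 𝒪))).toAlgebra

/-- The ring homomorphism `k → ResidueField k[ε]` whose `toAlgebra` is used (through a `letI`)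
in `GaloisRep.TangentFinite`. -/
noncomputable def dualResidueHom :
    ResidueField 𝒪 →+* ResidueField (DualNumber (ResidueField 𝒪)) :=
  (IsLocalRing.residue (DualNumber (ResidueField 𝒪))).comp
    (algebraMap (ResidueField 𝒪) (DualNumber (ResidueField 𝒪)))

/-- The `letI` algebra structure of `TangentFinite` is propositionally (not definitionally)
equal to the global Mathlib instance. -/
theorem dualAlgebra_eq_inferInstance :
    dualAlgebra 𝒪 = (inferInstance : Algebra 𝒪 (DualNumber (ResidueField 𝒪))) :=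
  Algebra.algebra_ext _ _ fun _ => rfl

theorem algebraMap_dualAlgebra (a : 𝒪) :
    @algebraMap 𝒪 (DualNumber (ResidueField 𝒪)) _ _ (dualAlgebra 𝒪) a =
      algebraMap (ResidueField 𝒪) (DualNumber (ResidueField 𝒪)) (IsLocalRing.residue 𝒪 a) :=
  rfl

/-- The structure map `𝒪 → k[ε]` (for the `TangentFinite` algebra structure) is a local
homomorphism. -/
theorem isLocalHom_algebraMap_dualAlgebra :
    IsLocalHom (@algebraMap 𝒪 (DualNumber (ResidueField 𝒪)) _ _ (dualAlgebra 𝒪)) := by
  refine ⟨fun a ha => ?_⟩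
  rw [algebraMap_dualAlgebra] at ha
  have h1 : IsUnit (TrivSqZeroExt.fst
      (algebraMap (ResidueField 𝒪) (DualNumber (ResidueField 𝒪)) (IsLocalRing.residue 𝒪 a))) :=
    (TrivSqZeroExt.isUnit_iff_isUnit_fst).mp ha
  have h2 : IsUnit (IsLocalRing.residue 𝒪 a) := h1
  by_contra hna
  have h3 : IsLocalRing.residue 𝒪 a = 0 :=
    (IsLocalRing.residue_eq_zero_iff a).mpr ((IsLocalRing.mem_maximalIdeal a).mpr hna)
  rw [h3] at h2
  exact not_isUnit_zero h2

/-- `dualResidueHom` is the map induced on residue fields by the structure map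
`𝒪 → k[ε]` (for the `TangentFinite` algebra structure). -/
theorem dualResidueHom_eq_map :
    dualResidueHom 𝒪 =
      @IsLocalRing.ResidueField.map 𝒪 (DualNumber (ResidueField 𝒪)) _ _ _ _
        (@algebraMap 𝒪 (DualNumber (ResidueField 𝒪)) _ _ (dualAlgebra 𝒪))
        (isLocalHom_algebraMap_dualAlgebra 𝒪) := by
  ext x
  obtain ⟨a, rfl⟩ := IsLocalRing.residue_surjective x
  rfl

variable (ρbar : ResidualGaloisRep (ResidueField 𝒪))
  (𝒟 : ∀ ⦃A : Type⦄ [CommRing A] [IsLocalRing A] [Algebra 𝒪 A], GaloisRepAdic A → Prop)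

/-- The type of deformations to the dual numbers appearing in `TangentFinite`. -/
def TangentType : Type 1 :=
  {ρ : GaloisRepAdic (DualNumber (ResidueField 𝒪)) //
    @𝒟 (DualNumber (ResidueField 𝒪)) _ _ (dualAlgebra 𝒪) ρ ∧
      ρ.residual.IsEquiv (ρbar.baseChangeAlong (dualResidueHom 𝒪))}

/-- The equivalence relation on `TangentType` appearing in `TangentFinite`. -/
def tangentSetoid : Setoid (TangentType 𝒪 ρbar 𝒟) :=
  ⟨fun ρ ρ' => ρ.1.IsEquiv ρ'.1, ⟨fun ρ => ⟨GaloisRepAdic.Equiv.refl ρ.1⟩,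
    fun ⟨e⟩ => ⟨e.symm⟩, fun ⟨e⟩ ⟨e'⟩ => ⟨e.trans e'⟩⟩⟩

/-- `TangentFinite` unfolded in terms of the named structures. -/
theorem tangentFinite_iff :
    GaloisRep.TangentFinite 𝒪 ρbar 𝒟 ↔ Finite (Quotient (tangentSetoid 𝒪 ρbar 𝒟)) :=
  Iff.rfl

/-- The finiteness criterion used for the tangent-space bound: a family of deformations to the
dual numbers (of type `𝒟`, lifting `ρbar`) which is injective up to `IsEquiv` is finite. -/
theorem finite_of_injective_up_to_isEquiv (h : GaloisRep.TangentFinite 𝒪 ρbar 𝒟)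
    {S : Type*} (f : S → GaloisRepAdic (DualNumber (ResidueField 𝒪)))
    (h𝒟 : ∀ s, @𝒟 (DualNumber (ResidueField 𝒪)) _ _ (dualAlgebra 𝒪) (f s))
    (hres : ∀ s, (f s).residual.IsEquiv (ρbar.baseChangeAlong (dualResidueHom 𝒪)))
    (hinj : ∀ s s', (f s).IsEquiv (f s') → s = s') : Finite S := by
  have : Finite (Quotient (tangentSetoid 𝒪 ρbar 𝒟)) := (tangentFinite_iff 𝒪 ρbar 𝒟).mp h
  let F : S → Quotient (tangentSetoid 𝒪 ρbar 𝒟) := fun s =>
    Quotient.mk _ (⟨f s, h𝒟 s, hres s⟩ : TangentType 𝒪 ρbar 𝒟)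
  refine Finite.of_injective F fun s s' hss' => ?_
  have : (tangentSetoid 𝒪 ρbar 𝒟).r ⟨f s, h𝒟 s, hres s⟩ ⟨f s', h𝒟 s', hres s'⟩ :=
    Quotient.exact hss'
  exact hinj s s' this

end Fermat.Agent.S53.H99
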